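import Fermat.Agent.S41.Glue.Symbol

/-!
# S41, Ihara glue 4: homomorphisms killing `{a ≡ 1 mod N}`; injectivity of `tw`
(owner: see task S41-IG4)
-/

set_option autoImplicit false

open Matrix.SpecialLinearGroup CongruenceSubgroup ModularForm
open scoped MatrixGroups

namespace Fermat.Agent.S41.Glue

open Fermat.Agent.Lib.HeckeHom Fermat.Agent.S16.Lift

variable {N : ℕ} {A : Type*} [AddCommGroup A]

/-- `d mod N` is onto the units. -/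
theorem factor_dUnit_surjective [NeZero N] : Function.Surjective (dUnit N) := by
  intro u
  have hcop : IsCoprime (((u⁻¹ : (ZMod N)ˣ) : ZMod N).val : ℤ) (N : ℤ) :=
    Nat.isCoprime_iff_coprime.mpr (ZMod.val_coe_unit_coprime u⁻¹)
  obtain ⟨γ, h00, -⟩ := exists_firstCol (N := N) hcop (dvd_refl _)
  refine ⟨γ, ?_⟩
  apply Units.ext
  rw [coe_dUnit]
  have h1 := a_mul_d N γ
  rw [h00] at h1
  have h2 : (((((u⁻¹ : (ZMod N)ˣ) : ZMod N).val : ℕ) : ℤ) : ZMod N) = ((u⁻¹ : (ZMod N)ˣ) : ZMod N) := by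
    rw [Int.cast_natCast, ZMod.natCast_zmod_val]
  rw [h2] at h1
  calc (((γ : SL(2, ℤ)) 1 1 : ℤ) : ZMod N)
      = ((u : ZMod N) * ((u⁻¹ : (ZMod N)ˣ) : ZMod N)) * (((γ : SL(2, ℤ)) 1 1 : ℤ) : ZMod N) := by
        rw [Units.mul_inv, one_mul]
    _ = (u : ZMod N) := by rw [mul_assoc, h1, mul_one]

/-- `ψ` as a multiplicative homomorphism. -/
def factorHom (ψ : Additive (Gamma0 N) →+ A) : Gamma0 N →* Multiplicative A where
  toFun γ := Multiplicative.ofAdd (ψ (Additive.ofMul γ))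
  map_one' := by
    rw [ofMul_one, map_zero]
    rfl
  map_mul' x y := by
    rw [ofMul_mul, map_add]
    rfl

/-- (Step 0) A homomorphism killing all `γ ∈ Γ₀(N)` with `a ≡ 1 mod N` is an eigenvector of `T_ℓ`
with eigenvalue `ℓ + 1`. -/
theorem heckeHomT_of_kills [NeZero N] {ℓ : ℕ} (hℓ : ℓ.Prime) (hℓN : ¬ ℓ ∣ N)
    (ψ : Additive (Gamma0 N) →+ A)
    (hψ : ∀ γ : Gamma0 N, (N : ℤ) ∣ (γ : SL(2, ℤ)) 0 0 - 1 → ψ (Additive.ofMul γ) = 0) :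
    heckeHomT hℓ hℓN ψ = (ℓ + 1) • ψ := by
  have hker : (dUnit N).ker ≤ (factorHom ψ).ker := by
    intro γ hγ
    rw [MonoidHom.mem_ker] at hγ ⊢
    have h1 : (((γ : SL(2, ℤ)) 1 1 : ℤ) : ZMod N) = 1 := by
      rw [← coe_dUnit, hγ, Units.val_one]
    have h2 := a_mul_d N γ
    rw [h1, mul_one] at h2
    have h3 : (N : ℤ) ∣ (γ : SL(2, ℤ)) 0 0 - 1 := by
      rw [← ZMod.intCast_zmod_eq_zero_iff_dvd]
      push_cast
      rw [h2, sub_self]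
    show Multiplicative.ofAdd (ψ (Additive.ofMul γ)) = 1
    rw [hψ γ h3]
    rfl
  refine heckeHomT_of_factors hℓ hℓN
    ((dUnit N).liftOfSurjective factor_dUnit_surjective ⟨factorHom ψ, hker⟩) ψ fun γ => ?_
  rw [MonoidHom.liftOfRightInverse_comp_apply]
  rfl

/-- the entry `c` of an element of `Γ₀(N)` is divisible by `N`. -/
theorem factor_dvd_c (γ : Gamma0 N) : (N : ℤ) ∣ (γ : SL(2, ℤ)) 1 0 :=
  (ZMod.intCast_zmod_eq_zero_iff_dvd _ _).mp (Gamma0_mem.mp γ.2)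

theorem factor_det (γ : Gamma0 N) :
    (γ : SL(2, ℤ)) 0 0 * (γ : SL(2, ℤ)) 1 1 - (γ : SL(2, ℤ)) 0 1 * (γ : SL(2, ℤ)) 1 0 = 1 := by
  have h := (γ : SL(2, ℤ)).det_coe
  rwa [Matrix.det_fin_two] at h

/-- Claim 1: `ψ γ = 0` if `q ∣ b`. -/
theorem factor_apply_of_dvd {q : ℕ} (hq0 : q ≠ 0) {ψ : Additive (Gamma0 N) →+ A}
    (h : tw N q ψ = 0) (γ : Gamma0 N) (hb : (q : ℤ) ∣ (γ : SL(2, ℤ)) 0 1) :
    ψ (Additive.ofMul γ) = 0 := by
  obtain ⟨b', hb'⟩ := hb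
  obtain ⟨c', hc'⟩ := factor_dvd_c γ
  have hdet := factor_det γ
  let g₀ : SL(2, ℤ) := ⟨!![(γ : SL(2, ℤ)) 0 0, b'; (q : ℤ) * (γ : SL(2, ℤ)) 1 0, (γ : SL(2, ℤ)) 1 1], by
    rw [Matrix.det_fin_two_of]
    rw [hb'] at hdet
    linarith⟩
  have hg₀ : g₀ ∈ Gamma0 (N * q) := by
    rw [Gamma0_mem, ZMod.intCast_zmod_eq_zero_iff_dvd]
    show ((N * q : ℕ) : ℤ) ∣ (q : ℤ) * (γ : SL(2, ℤ)) 1 0
    rw [hc']
    exact ⟨c', by push_cast; ring⟩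
  have e : heckeDiagMatrix q * incl (N * q) ⟨g₀, hg₀⟩ = incl N γ * heckeDiagMatrix q := by
    apply Units.ext
    rw [Units.val_mul, Units.val_mul, val_heckeDiagMatrix hq0]
    ext i j
    have hb'' : (((γ : SL(2, ℤ)) 0 1 : ℤ) : ℝ) = (q : ℝ) * (b' : ℝ) := by
      rw [hb']; push_cast; ring
    fin_cases i <;> fin_cases j <;>
      simp [Matrix.mul_apply, Fin.sum_univ_two, incl_entry, g₀, hb'', mul_comm]
  have h1 := tw_apply N q ψ e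
  rw [h] at h1
  exact h1.symm

/-- Claim 2: `ψ γ = 0` if `q ∤ a`. -/
theorem factor_apply_of_not_dvd {q : ℕ} (hq : q.Prime) {ψ : Additive (Gamma0 N) →+ A}
    (hψ : ψ ∈ homPE N A) (h : tw N q ψ = 0) (γ : Gamma0 N)
    (ha : ¬ (q : ℤ) ∣ (γ : SL(2, ℤ)) 0 0) : ψ (Additive.ofMul γ) = 0 := by
  have hqp : Prime (q : ℤ) := Nat.prime_iff_prime_int.mp hq
  have hcop : IsCoprime (q : ℤ) ((γ : SL(2, ℤ)) 0 0) := (Prime.coprime_iff_not_dvd hqp).mpr ha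
  obtain ⟨u, v, huv⟩ := hcop
  -- `k = - b v`
  have hmul : ((γ * transl N (-((γ : SL(2, ℤ)) 0 1 * v)) : Gamma0 N) : SL(2, ℤ)) 0 1 =
      (γ : SL(2, ℤ)) 0 1 + (γ : SL(2, ℤ)) 0 0 * (-((γ : SL(2, ℤ)) 0 1 * v)) := by
    show ((γ : SL(2, ℤ)) * (ModularGroup.T ^ (-((γ : SL(2, ℤ)) 0 1 * v)) : SL(2, ℤ))) 0 1 = _
    rw [Matrix.SpecialLinearGroup.coe_mul, ModularGroup.coe_T_zpow, Matrix.mul_apply,
      Fin.sum_univ_two]
    simp
    ring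
  have hdvd : (q : ℤ) ∣
      ((γ * transl N (-((γ : SL(2, ℤ)) 0 1 * v)) : Gamma0 N) : SL(2, ℤ)) 0 1 := by
    rw [hmul]
    refine ⟨(γ : SL(2, ℤ)) 0 1 * u, ?_⟩
    linear_combination (-(γ : SL(2, ℤ)) 0 1) * huv
  have h1 := factor_apply_of_dvd hq.ne_zero h _ hdvd
  rw [ofMul_mul, map_add, apply_transl_of_mem_homPE hψ, add_zero] at h1
  exact h1

/-- `tw` is injective on parabolic homomorphisms: `Γ₀(N)` is generated by `δ Γ₀(Nq) δ⁻¹` and `T`. -/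
theorem eq_zero_of_tw_eq_zero {q : ℕ} (hq : q.Prime) (hqN : ¬ q ∣ N)
    {ψ : Additive (Gamma0 N) →+ A} (hψ : ψ ∈ homPE N A) (h : tw N q ψ = 0) : ψ = 0 := by
  refine AddMonoidHom.ext fun γ => ?_
  obtain ⟨γ, rfl⟩ := Additive.ofMul.surjective γ
  rw [AddMonoidHom.zero_apply]
  have hqp : Prime (q : ℤ) := Nat.prime_iff_prime_int.mp hq
  by_cases ha : (q : ℤ) ∣ (γ : SL(2, ℤ)) 0 0
  · have hdet := factor_det γ
    have hb : ¬ (q : ℤ) ∣ (γ : SL(2, ℤ)) 0 1 := by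
      intro hb
      have : (q : ℤ) ∣ 1 := by
        rw [← hdet]
        exact dvd_sub (Dvd.dvd.mul_right ha _) (Dvd.dvd.mul_right hb _)
      exact hqp.not_dvd_one this
    have hmul : ((γ * lowerN N : Gamma0 N) : SL(2, ℤ)) 0 0 =
        (γ : SL(2, ℤ)) 0 0 + (γ : SL(2, ℤ)) 0 1 * (N : ℤ) := by
      show ((γ : SL(2, ℤ)) * ((lowerN N : Gamma0 N) : SL(2, ℤ))) 0 0 = _
      rw [Matrix.SpecialLinearGroup.coe_mul, Matrix.mul_apply, Fin.sum_univ_two]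
      simp [lowerN]
    have hna : ¬ (q : ℤ) ∣ ((γ * lowerN N : Gamma0 N) : SL(2, ℤ)) 0 0 := by
      rw [hmul]
      intro hd
      have h2 : (q : ℤ) ∣ (γ : SL(2, ℤ)) 0 1 * (N : ℤ) := (dvd_add_right ha).mp hd
      rcases hqp.dvd_or_dvd h2 with h3 | h3
      · exact hb h3
      · exact hqN (Int.natCast_dvd_natCast.mp h3)
    have h1 := factor_apply_of_not_dvd hq hψ h _ hna
    rw [ofMul_mul, map_add, apply_lowerN_of_mem_homPE hψ, add_zero] at h1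
    exact h1
  · exact factor_apply_of_not_dvd hq hψ h γ ha

end Fermat.Agent.S41.Glue
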