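import Fermat.Agent.S41.Glue.Symbol

/-!
# S41, Ihara glue 3: (P5), the Hecke recursion for the symbol  (owner: see task S41-IG3)
-/

set_option autoImplicit false

open Matrix.SpecialLinearGroup CongruenceSubgroup ModularForm
open scoped MatrixGroups

namespace Fermat.Agent.S41.Glue

open Fermat.Agent.Lib.HeckeHom Fermat.Agent.S16.Lift

variable {N ℓ : ℕ} {A : Type*} [AddCommGroup A]

/-- a prime cannot divide the first column of a matrix of determinant one -/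
theorem hecke_not_dvd_col (hℓ : ℓ.Prime) (g : SL(2, ℤ)) (u v : ℤ) (h0 : g 0 0 = ℓ * u)
    (h1 : g 1 0 = ℓ * v) : False := by
  have hd := g.det_coe
  rw [Matrix.det_fin_two, h0, h1] at hd
  have hdvd : (ℓ : ℤ) ∣ 1 := ⟨u * g 1 1 - g 0 1 * v, by linear_combination -hd⟩
  have := Int.le_of_dvd one_pos hdvd
  have := hℓ.two_le
  omega

/-- the first column of `g`, when `diag(ℓ,1) γ = g α` with `α` one of the representatives -/
theorem hecke_col_infty (hℓ : ℓ.Prime) (γ g : Gamma0 N) (y : OnePoint (ZMod ℓ))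
    (c : ℤ) (h1 : (γ : SL(2, ℤ)) 1 0 = ℓ * c)
    (e : repT ℓ OnePoint.infty * incl N γ = incl N g * repT ℓ y) :
    (g : SL(2, ℤ)) 0 0 = (γ : SL(2, ℤ)) 0 0 ∧ (g : SL(2, ℤ)) 1 0 = c := by
  have hq : ℓ ≠ 0 := hℓ.ne_zero
  have hqZ : (ℓ : ℤ) ≠ 0 := by exact_mod_cast hq
  have e00 := congrArg (fun M : GL (Fin 2) ℝ => (M : Matrix (Fin 2) (Fin 2) ℝ) 0 0) e
  have e10 := congrArg (fun M : GL (Fin 2) ℝ => (M : Matrix (Fin 2) (Fin 2) ℝ) 1 0) e
  induction y using OnePoint.rec with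
  | infty =>
    rw [repT_infty] at e00 e10
    simp only [Matrix.GeneralLinearGroup.coe_mul, val_heckeDiagMatrix hq, Matrix.mul_apply,
      Fin.sum_univ_two, incl_entry] at e00 e10
    simp only [Matrix.of_apply, Matrix.cons_val_zero, Matrix.cons_val_one, Matrix.cons_val',
      Matrix.cons_val_fin_one, mul_zero, zero_mul, add_zero, zero_add, one_mul, mul_one]
      at e00 e10
    have E00 : (ℓ : ℤ) * (γ : SL(2, ℤ)) 0 0 = (g : SL(2, ℤ)) 0 0 * ℓ := by exact_mod_cast e00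
    have E10 : (γ : SL(2, ℤ)) 1 0 = (g : SL(2, ℤ)) 1 0 * ℓ := by exact_mod_cast e10
    constructor
    · exact mul_left_cancel₀ hqZ (by linear_combination -E00)
    · exact mul_left_cancel₀ hqZ (by linear_combination -E10 + h1)
  | coe j =>
    exfalso
    rw [repT_infty, repT_coe] at e00 e10
    simp only [Matrix.GeneralLinearGroup.coe_mul, val_heckeDiagMatrix hq, val_heckeMatrix hq,
      Matrix.mul_apply, Fin.sum_univ_two, incl_entry] at e00 e10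
    simp only [Matrix.of_apply, Matrix.cons_val_zero, Matrix.cons_val_one, Matrix.cons_val',
      Matrix.cons_val_fin_one, mul_zero, zero_mul, add_zero, zero_add, one_mul, mul_one]
      at e00 e10
    have E00 : (ℓ : ℤ) * (γ : SL(2, ℤ)) 0 0 = (g : SL(2, ℤ)) 0 0 := by exact_mod_cast e00
    have E10 : (γ : SL(2, ℤ)) 1 0 = (g : SL(2, ℤ)) 1 0 := by exact_mod_cast e10
    exact hecke_not_dvd_col hℓ (g : SL(2, ℤ)) _ c E00.symm (by rw [← E10, h1])

/-- the first column of `g`, when `[[1,j],[0,ℓ]] γ = g α` with `α` one of the representatives -/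
theorem hecke_col_coe (hℓ : ℓ.Prime) (γ g : Gamma0 N) (j : ZMod ℓ) (y : OnePoint (ZMod ℓ))
    (c : ℤ) (h1 : (γ : SL(2, ℤ)) 1 0 = ℓ * c)
    (e : repT ℓ (j : OnePoint (ZMod ℓ)) * incl N γ = incl N g * repT ℓ y) :
    (g : SL(2, ℤ)) 0 0 = (γ : SL(2, ℤ)) 0 0 + (j.val : ℤ) * (ℓ * c) ∧
      (g : SL(2, ℤ)) 1 0 = ℓ * (ℓ * c) := by
  have hq : ℓ ≠ 0 := hℓ.ne_zero
  have hqZ : (ℓ : ℤ) ≠ 0 := by exact_mod_cast hq
  have e00 := congrArg (fun M : GL (Fin 2) ℝ => (M : Matrix (Fin 2) (Fin 2) ℝ) 0 0) e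
  have e10 := congrArg (fun M : GL (Fin 2) ℝ => (M : Matrix (Fin 2) (Fin 2) ℝ) 1 0) e
  induction y using OnePoint.rec with
  | infty =>
    exfalso
    rw [repT_infty, repT_coe] at e00 e10
    simp only [Matrix.GeneralLinearGroup.coe_mul, val_heckeDiagMatrix hq, val_heckeMatrix hq,
      Matrix.mul_apply, Fin.sum_univ_two, incl_entry] at e00 e10
    simp only [Matrix.of_apply, Matrix.cons_val_zero, Matrix.cons_val_one, Matrix.cons_val',
      Matrix.cons_val_fin_one, mul_zero, zero_mul, add_zero, zero_add, one_mul, mul_one]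
      at e00 e10
    have E00 : (γ : SL(2, ℤ)) 0 0 + (j.val : ℤ) * (γ : SL(2, ℤ)) 1 0 = (g : SL(2, ℤ)) 0 0 * ℓ := by
      exact_mod_cast e00
    refine hecke_not_dvd_col hℓ (γ : SL(2, ℤ)) ((g : SL(2, ℤ)) 0 0 - (j.val : ℤ) * c) c ?_ h1
    rw [h1] at E00
    linear_combination E00
  | coe j' =>
    rw [repT_coe, repT_coe] at e00 e10
    simp only [Matrix.GeneralLinearGroup.coe_mul, val_heckeMatrix hq,
      Matrix.mul_apply, Fin.sum_univ_two, incl_entry] at e00 e10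
    simp only [Matrix.of_apply, Matrix.cons_val_zero, Matrix.cons_val_one, Matrix.cons_val',
      Matrix.cons_val_fin_one, mul_zero, zero_mul, add_zero, zero_add, one_mul, mul_one]
      at e00 e10
    have E00 : (γ : SL(2, ℤ)) 0 0 + (j.val : ℤ) * (γ : SL(2, ℤ)) 1 0 = (g : SL(2, ℤ)) 0 0 := by
      exact_mod_cast e00
    have E10 : (ℓ : ℤ) * (γ : SL(2, ℤ)) 1 0 = (g : SL(2, ℤ)) 1 0 := by exact_mod_cast e10
    rw [h1] at E00 E10
    exact ⟨E00.symm, E10.symm⟩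

/-- (P5): the value of `T_ℓ ψ` at an element with first column `(a, ℓ c)`. -/
theorem heckeHomT_apply_of_dvd (hℓ : ℓ.Prime) (hℓN : ¬ ℓ ∣ N) {ψ : Additive (Gamma0 N) →+ A}
    (hψ : ψ ∈ homPE N A) (a c : ℤ) (hac : IsCoprime a (ℓ * c)) (hc : (N : ℤ) ∣ c)
    (γ : Gamma0 N) (h0 : (γ : SL(2, ℤ)) 0 0 = a) (h1 : (γ : SL(2, ℤ)) 1 0 = ℓ * c) :
    heckeHomT hℓ hℓN ψ (Additive.ofMul γ) =
      sym N ψ a c + ∑ j ∈ Finset.range ℓ, sym N ψ (a + j * (ℓ * c)) (ℓ * (ℓ * c)) := by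
  haveI : Fact ℓ.Prime := ⟨hℓ⟩
  haveI : NeZero ℓ := ⟨hℓ.ne_zero⟩
  have hfam := isHeckeFamily_T (N := N) hℓN
  have hdef : heckeHomT hℓ hℓN ψ (Additive.ofMul γ) =
      ∑ x : OnePoint (ZMod ℓ), ψ (Additive.ofMul (hfam.coc γ x)) := rfl
  have hsplit : ∑ x : OnePoint (ZMod ℓ), ψ (Additive.ofMul (hfam.coc γ x)) =
      ψ (Additive.ofMul (hfam.coc γ OnePoint.infty)) +
        ∑ j : ZMod ℓ, ψ (Additive.ofMul (hfam.coc γ (j : OnePoint (ZMod ℓ)))) :=
    Fintype.sum_option (α := ZMod ℓ) (fun x => ψ (Additive.ofMul (hfam.coc γ x)))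
  rw [hdef, hsplit,
    P2MW.S_ModularForm_heckeT_slash_eq_self_of_mem_Gamma0.ModularForm.HeckeSlashInvariance.sum_range_eq_sum_zmod
      (p := ℓ) (fun j : ℕ => sym N ψ (a + j * (ℓ * c)) (ℓ * (ℓ * c)))]
  congr 1
  · obtain ⟨g0, g1⟩ := hecke_col_infty hℓ γ _ _ c h1 (hfam.spec γ OnePoint.infty)
    rw [← sym_eq hψ, g0, g1, h0]
  · refine Finset.sum_congr rfl fun j _ => ?_
    obtain ⟨g0, g1⟩ := hecke_col_coe hℓ γ _ j _ c h1 (hfam.spec γ (j : OnePoint (ZMod ℓ)))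
    rw [← sym_eq hψ, g0, g1, h0]

end Fermat.Agent.S41.Glue
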