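import Fermat.Agent.S41.Glue.Symbol

/-!
# S41, Ihara glue 2: (P3), invariance of the symbol under `a ↦ q^(2p) a`  (owner: see task S41-IG2)
-/

set_option autoImplicit false

open Matrix.SpecialLinearGroup CongruenceSubgroup ModularForm
open scoped MatrixGroups

namespace Fermat.Agent.S41.Glue

open Fermat.Agent.Lib.HeckeHom Fermat.Agent.S16.Lift

variable {N q : ℕ} {A : Type*} [AddCommGroup A]

/-- `[[a, b], [c, d]]` as an element of `Γ₀(N)`. -/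
def mulQMk (N : ℕ) (a b c d : ℤ) (hdet : a * d - b * c = 1) (hc : (N : ℤ) ∣ c) : Gamma0 N :=
  ⟨⟨!![a, b; c, d], by rw [Matrix.det_fin_two_of]; exact hdet⟩, by
    rw [Gamma0_mem]
    simpa using (ZMod.intCast_zmod_eq_zero_iff_dvd c N).mpr hc⟩

theorem mulQMk_coe (a b c d : ℤ) (hdet : a * d - b * c = 1) (hc : (N : ℤ) ∣ c) :
    (((mulQMk N a b c d hdet hc : Gamma0 N) : SL(2, ℤ)) : Matrix (Fin 2) (Fin 2) ℤ) =
      !![a, b; c, d] := rfl

theorem mulQMk_eq_mul {a b c d a' b' c' d' a₂ b₂ c₂ d₂ : ℤ}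
    (hdet : a * d - b * c = 1) (hc : (N : ℤ) ∣ c)
    (hdet' : a' * d' - b' * c' = 1) (hc' : (N : ℤ) ∣ c')
    (hdet₂ : a₂ * d₂ - b₂ * c₂ = 1) (hc₂ : (N : ℤ) ∣ c₂)
    (ha : a₂ = a * a' + b * c') (hb : b₂ = a * b' + b * d')
    (hcc : c₂ = c * a' + d * c') (hd : d₂ = c * b' + d * d') :
    mulQMk N a₂ b₂ c₂ d₂ hdet₂ hc₂ = mulQMk N a b c d hdet hc * mulQMk N a' b' c' d' hdet' hc' := by
  subst ha hb hcc hd
  apply Subtype.ext
  apply Subtype.ext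
  rw [Subgroup.coe_mul, Matrix.SpecialLinearGroup.coe_mul, mulQMk_coe, mulQMk_coe, mulQMk_coe]
  ext i j
  fin_cases i <;> fin_cases j <;> simp [Matrix.mul_apply, Fin.sum_univ_two]

theorem mulQ_apply_mul (ψ : Additive (Gamma0 N) →+ A) {a b c d a' b' c' d' a₂ b₂ c₂ d₂ : ℤ}
    (hdet : a * d - b * c = 1) (hc : (N : ℤ) ∣ c)
    (hdet' : a' * d' - b' * c' = 1) (hc' : (N : ℤ) ∣ c')
    (hdet₂ : a₂ * d₂ - b₂ * c₂ = 1) (hc₂ : (N : ℤ) ∣ c₂)
    (ha : a₂ = a * a' + b * c') (hb : b₂ = a * b' + b * d')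
    (hcc : c₂ = c * a' + d * c') (hd : d₂ = c * b' + d * d') :
    ψ (Additive.ofMul (mulQMk N a₂ b₂ c₂ d₂ hdet₂ hc₂)) =
      ψ (Additive.ofMul (mulQMk N a b c d hdet hc)) +
        ψ (Additive.ofMul (mulQMk N a' b' c' d' hdet' hc')) := by
  rw [mulQMk_eq_mul hdet hc hdet' hc' hdet₂ hc₂ ha hb hcc hd, ofMul_mul, map_add]

/-- The kernel relation, evaluated at `[[a, b], [q c, d]]`. -/
theorem mulQ_ker_rel (hq : q ≠ 0) {ψ₁ ψ₂ : Additive (Gamma0 N) →+ A}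
    (hker : res N q ψ₁ + tw N q ψ₂ = 0) (a b c d : ℤ)
    (hdet : a * d - b * ((q : ℤ) * c) = 1) (hdet' : a * d - (q : ℤ) * b * c = 1)
    (hc : (N : ℤ) ∣ c) (hc' : (N : ℤ) ∣ (q : ℤ) * c) :
    ψ₁ (Additive.ofMul (mulQMk N a b ((q : ℤ) * c) d hdet hc')) +
      ψ₂ (Additive.ofMul (mulQMk N a ((q : ℤ) * b) c d hdet' hc)) = 0 := by
  have hc'' : ((N * q : ℕ) : ℤ) ∣ (q : ℤ) * c := by
    rw [Nat.cast_mul, mul_comm]
    exact mul_dvd_mul_left _ hc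
  have h := DFunLike.congr_fun hker (Additive.ofMul (mulQMk (N * q) a b ((q : ℤ) * c) d hdet hc''))
  rw [AddMonoidHom.add_apply, AddMonoidHom.zero_apply,
    res_apply N q ψ₁ (γ' := mulQMk N a b ((q : ℤ) * c) d hdet hc') rfl,
    tw_apply N q ψ₂ (γ' := mulQMk N a ((q : ℤ) * b) c d hdet' hc) ?_] at h
  · exact h
  · apply Units.ext
    rw [Units.val_mul, Units.val_mul, val_heckeDiagMatrix hq]
    ext i j
    fin_cases i <;> fin_cases j <;>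
      simp [Matrix.mul_apply, Fin.sum_univ_two, incl_entry, mulQMk_coe] <;> ring

theorem mulQ_sym_mk {ψ : Additive (Gamma0 N) →+ A} (hψ : ψ ∈ homPE N A) (a b c d : ℤ)
    (hdet : a * d - b * c = 1) (hc : (N : ℤ) ∣ c) :
    sym N ψ a c = ψ (Additive.ofMul (mulQMk N a b c d hdet hc)) :=
  sym_eq hψ (mulQMk N a b c d hdet hc)

theorem mulQ_sym_add_mul {ψ : Additive (Gamma0 N) →+ A} (hψ : ψ ∈ homPE N A) (a c : ℤ)
    (h : IsCoprime a c) (hc : (N : ℤ) ∣ c) (k : ℤ) : sym N ψ (a + k * c) c = sym N ψ a c := by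
  induction k using Int.induction_on with
  | zero => simp
  | succ k ih =>
    have h1 := sym_add_left hψ (a + (k : ℤ) * c) c (h.add_mul_right_left _) hc
    rw [← ih, ← h1]
    congr 1
    ring
  | pred k ih =>
    have h1 := sym_add_left hψ (a + (-(k : ℤ) - 1) * c) c (h.add_mul_right_left _) hc
    rw [← ih, ← h1]
    congr 1
    ring

/-- (P3), additive form: if `(ψ₁, ψ₂)` is in the kernel of `res + tw` then
`s(q² a, c) = s(a, c) + C` for a constant `C`. -/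
theorem exists_sym_sq_mul (hqN : Nat.Coprime q N) {ψ₁ ψ₂ : Additive (Gamma0 N) →+ A}
    (h₁ : ψ₁ ∈ homPE N A) (h₂ : ψ₂ ∈ homPE N A) (hker : res N q ψ₁ + tw N q ψ₂ = 0) :
    ∃ C : A, ∀ a c : ℤ, IsCoprime a c → (N : ℤ) ∣ c → IsCoprime (q : ℤ) c →
      sym N ψ₁ ((q : ℤ) ^ 2 * a) c = sym N ψ₁ a c + C := by
  rcases eq_or_ne q 0 with rfl | hq
  · -- degenerate case: `c = ± 1`
    refine ⟨0, fun a c hac hc hqc => ?_⟩
    have h0 : IsCoprime (0 : ℤ) c := by simpa using hqc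
    have hu : IsUnit c := isCoprime_zero_left.mp h0
    have hcc : c * c = 1 := by
      rcases Int.isUnit_iff.mp hu with rfl | rfl <;> norm_num
    have h3 := mulQ_sym_add_mul h₁ 0 c h0 hc (a * c)
    have h4 : (0 : ℤ) + a * c * c = a := by rw [mul_assoc, hcc]; ring
    rw [h4] at h3
    rw [add_zero, h3]
    congr 1
    simp
  obtain ⟨u, v, huv⟩ := Nat.isCoprime_iff_coprime.mpr hqN
  obtain ⟨x, y, hxy⟩ : ∃ x y : ℤ, (q : ℤ) * x - y * N = 1 := ⟨u, -v, by linear_combination huv⟩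
  have hz0 : (1 : ℤ) * ((q : ℤ) * x) - y * N = 1 := by linear_combination hxy
  refine ⟨(ψ₁ (Additive.ofMul (mulQMk N q y N x hxy dvd_rfl)) -
      ψ₂ (Additive.ofMul (mulQMk N q y N x hxy dvd_rfl))) -
    (ψ₁ (Additive.ofMul (mulQMk N 1 y N ((q : ℤ) * x) hz0 dvd_rfl)) -
      ψ₂ (Additive.ofMul (mulQMk N 1 y N ((q : ℤ) * x) hz0 dvd_rfl))), fun a c hac hc hqc => ?_⟩
  obtain ⟨u', v', huv'⟩ := (hqc.pow_left (m := 2)).mul_left hac
  obtain ⟨d, b, hdb⟩ : ∃ d b : ℤ, (q : ℤ) ^ 2 * a * d - b * c = 1 :=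
    ⟨u', -v', by linear_combination huv'⟩
  have hg : a * ((q : ℤ) ^ 2 * d) - b * c = 1 := by linear_combination hdb
  have hg'' : (q : ℤ) * a * ((q : ℤ) * d) - b * c = 1 := by linear_combination hdb
  -- first relation
  have hN1 : (N : ℤ) ∣ c + (q : ℤ) * d * N := dvd_add hc (dvd_mul_left _ _)
  have r1 := mulQ_ker_rel hq hker (a * q + b * N) (a * y + b * x) (c + (q : ℤ) * d * N)
    (c * y + (q : ℤ) ^ 2 * d * x)
    (by linear_combination ((q : ℤ) * x - y * N) * hg + hxy)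
    (by linear_combination ((q : ℤ) * x - y * N) * hg + hxy) hN1 (hN1.mul_left _)
  rw [mulQ_apply_mul ψ₁ hg hc hxy dvd_rfl _ _ rfl rfl (by ring) rfl,
    mulQ_apply_mul ψ₂ hg'' hc hz0 dvd_rfl _ _ (by ring) (by ring) (by ring) (by ring)] at r1
  -- second relation
  have hN2 : (N : ℤ) ∣ (N : ℤ) * (q * a) + x * c := dvd_add (dvd_mul_right _ _) (hc.mul_left _)
  have r2 := mulQ_ker_rel hq hker ((q : ℤ) ^ 2 * a + y * c) (b + y * d) ((N : ℤ) * (q * a) + x * c)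
    (N * b + (q : ℤ) * x * d)
    (by linear_combination ((q : ℤ) * x - y * N) * hdb + hxy)
    (by linear_combination ((q : ℤ) * x - y * N) * hdb + hxy) hN2 (hN2.mul_left _)
  rw [mulQ_apply_mul ψ₁ hz0 dvd_rfl hdb hc _ _ (by ring) (by ring) (by ring) (by ring),
    mulQ_apply_mul ψ₂ hxy dvd_rfl hg'' hc _ _ (by ring) (by ring) (by ring) (by ring)] at r2
  rw [mulQ_sym_mk h₁ _ b c d hdb hc, mulQ_sym_mk h₁ a b c _ hg hc]
  have r3 := congrArg₂ (· - ·) r2 r1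
  simp only [sub_zero] at r3
  rw [← sub_eq_zero, ← r3]
  abel

/-- (P3): if moreover `p • A = 0` then `s(q^(2p) a, c) = s(a, c)`. -/
theorem sym_Q_mul (hqN : Nat.Coprime q N) {ψ₁ ψ₂ : Additive (Gamma0 N) →+ A}
    (h₁ : ψ₁ ∈ homPE N A) (h₂ : ψ₂ ∈ homPE N A) (hker : res N q ψ₁ + tw N q ψ₂ = 0)
    (p : ℕ) (hp : ∀ x : A, p • x = 0) (a c : ℤ) (hac : IsCoprime a c) (hc : (N : ℤ) ∣ c)
    (hqc : IsCoprime ((q ^ (2 * p) : ℕ) : ℤ) c) :
    sym N ψ₁ (((q ^ (2 * p) : ℕ) : ℤ) * a) c = sym N ψ₁ a c := by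
  rcases Nat.eq_zero_or_pos p with rfl | hp0
  · simp
  obtain ⟨C, hC⟩ := exists_sym_sq_mul hqN h₁ h₂ hker
  have hqc' : IsCoprime (q : ℤ) c := by
    rw [Nat.cast_pow] at hqc
    exact (IsCoprime.pow_left_iff (by omega)).mp hqc
  have key : ∀ k : ℕ, sym N ψ₁ ((q : ℤ) ^ (2 * k) * a) c = sym N ψ₁ a c + k • C := by
    intro k
    induction k with
    | zero => simp
    | succ k ih =>
      have h3 := hC ((q : ℤ) ^ (2 * k) * a) c (hqc'.pow_left.mul_left hac) hc hqc'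
      have h4 : (q : ℤ) ^ (2 * (k + 1)) * a = (q : ℤ) ^ 2 * ((q : ℤ) ^ (2 * k) * a) := by ring
      rw [h4, h3, ih, succ_nsmul, add_assoc]
  rw [Nat.cast_pow, key p, hp, add_zero]

end Fermat.Agent.S41.Glue
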