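import Fermat.Agent.S41.Defs
import Fermat.Agent.S41.IharaDefs

/-!
# S41, Ihara glue 1: the first column symbol of a parabolic homomorphism  (owner: see task S41-IG1)

`sym N ψ a c = ψ γ` for any `γ ∈ Γ₀(N)` with first column `(a, c)`.
-/

set_option autoImplicit false

open Matrix.SpecialLinearGroup CongruenceSubgroup ModularForm
open scoped MatrixGroups

namespace Fermat.Agent.S41.Glue

open Fermat.Agent.Lib.HeckeHom Fermat.Agent.S16.Lift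

variable {N : ℕ} {A : Type*} [AddCommGroup A]

/-- The first column symbol. -/
noncomputable def sym (N : ℕ) (ψ : Additive (Gamma0 N) →+ A) (a c : ℤ) : A :=
  open Classical in
  if h : ∃ γ : Gamma0 N, (γ : SL(2, ℤ)) 0 0 = a ∧ (γ : SL(2, ℤ)) 1 0 = c then
    ψ (Additive.ofMul h.choose) else 0

/-- `[[1, 0], [N, 1]]` as an element of `Γ₀(N)`. -/
def lowerN (N : ℕ) : Gamma0 N :=
  ⟨⟨!![1, 0; (N : ℤ), 1], by simp [Matrix.det_fin_two_of]⟩, by rw [Gamma0_mem]; simp⟩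

/-- `-1` as an element of `Γ₀(N)`. -/
def negOne (N : ℕ) : Gamma0 N := ⟨-1, by rw [Gamma0_mem]; simp⟩

/-- `ψ` kills the elements conjugate to a power of `S`, `S * T` or `T`. -/
private theorem symbol_apply_eq_zero {ψ : Additive (Gamma0 N) →+ A} (hψ : ψ ∈ homPE N A)
    (γ : Gamma0 N) {σ : SL(2, ℤ)}
    (hσ : σ ∈ ({ModularGroup.S, ModularGroup.S * ModularGroup.T, ModularGroup.T} : Set SL(2, ℤ)))
    (k : ℕ) (g : SL(2, ℤ)) (h : (γ : SL(2, ℤ)) = g⁻¹ * σ ^ k * g) :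
    ψ (Additive.ofMul γ) = 0 := by
  have hmem : g⁻¹ * σ ^ k * g ∈ Gamma0 N := h ▸ γ.2
  have h0 := mem_homPE.mp hψ σ hσ k g hmem
  have : γ = ⟨_, hmem⟩ := Subtype.ext h
  rw [this]
  exact h0

private theorem symbol_apply_inv (ψ : Additive (Gamma0 N) →+ A) (γ : Gamma0 N) :
    ψ (Additive.ofMul γ⁻¹) = -ψ (Additive.ofMul γ) := by
  rw [ofMul_inv, map_neg]

private theorem symbol_apply_mul (ψ : Additive (Gamma0 N) →+ A) (γ γ' : Gamma0 N) :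
    ψ (Additive.ofMul (γ * γ')) = ψ (Additive.ofMul γ) + ψ (Additive.ofMul γ') := by
  rw [ofMul_mul, map_add]

private theorem symbol_mul_entry (γ γ' : Gamma0 N) (i j : Fin 2) :
    ((γ * γ' : Gamma0 N) : SL(2, ℤ)) i j =
      (γ : SL(2, ℤ)) i 0 * (γ' : SL(2, ℤ)) 0 j + (γ : SL(2, ℤ)) i 1 * (γ' : SL(2, ℤ)) 1 j := by
  rw [Subgroup.coe_mul, Matrix.SpecialLinearGroup.coe_mul, Matrix.mul_apply, Fin.sum_univ_two]

private theorem symbol_det (γ : Gamma0 N) :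
    (γ : SL(2, ℤ)) 0 0 * (γ : SL(2, ℤ)) 1 1 - (γ : SL(2, ℤ)) 0 1 * (γ : SL(2, ℤ)) 1 0 = 1 := by
  have h := (γ : SL(2, ℤ)).det_coe
  rwa [Matrix.det_fin_two] at h

private theorem symbol_transl_entry (t : ℤ) :
    ((transl N t : Gamma0 N) : SL(2, ℤ)) 0 0 = 1 ∧ ((transl N t : Gamma0 N) : SL(2, ℤ)) 0 1 = t ∧
    ((transl N t : Gamma0 N) : SL(2, ℤ)) 1 0 = 0 ∧ ((transl N t : Gamma0 N) : SL(2, ℤ)) 1 1 = 1 := by
  have h : (((transl N t : Gamma0 N) : SL(2, ℤ)) : Matrix (Fin 2) (Fin 2) ℤ) = !![1, t; 0, 1] :=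
    ModularGroup.coe_T_zpow t
  refine ⟨?_, ?_, ?_, ?_⟩ <;> rw [h] <;> simp

theorem apply_transl_of_mem_homPE {ψ : Additive (Gamma0 N) →+ A} (hψ : ψ ∈ homPE N A) (t : ℤ) :
    ψ (Additive.ofMul (transl N t)) = 0 := by
  have key : ∀ k : ℕ, ψ (Additive.ofMul (transl N (k : ℤ))) = 0 := by
    intro k
    refine symbol_apply_eq_zero hψ _ (σ := ModularGroup.T) (by simp) k 1 ?_
    show ModularGroup.T ^ (k : ℤ) = _
    rw [zpow_natCast, inv_one, one_mul, mul_one]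
  rcases le_total 0 t with ht | ht
  · obtain ⟨k, rfl⟩ := Int.eq_ofNat_of_zero_le ht
    exact key k
  · obtain ⟨k, hk⟩ := Int.eq_ofNat_of_zero_le (neg_nonneg.2 ht)
    have h1 : transl N t = (transl N (k : ℤ))⁻¹ := by
      apply Subtype.ext
      show ModularGroup.T ^ t = (ModularGroup.T ^ (k : ℤ))⁻¹
      rw [← zpow_neg, ← hk, neg_neg]
    rw [h1, symbol_apply_inv, key, neg_zero]

theorem apply_lowerN_of_mem_homPE {ψ : Additive (Gamma0 N) →+ A} (hψ : ψ ∈ homPE N A) :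
    ψ (Additive.ofMul (lowerN N)) = 0 := by
  have h1 : ψ (Additive.ofMul (lowerN N)⁻¹) = 0 := by
    refine symbol_apply_eq_zero hψ _ (σ := ModularGroup.T) (by simp) N ModularGroup.S ?_
    rw [Subgroup.coe_inv, mul_assoc, eq_inv_mul_iff_mul_eq, mul_inv_eq_iff_eq_mul]
    ext i j
    rw [← zpow_natCast]
    simp only [Matrix.SpecialLinearGroup.coe_mul, ModularGroup.coe_T_zpow, ModularGroup.coe_S,
      lowerN]
    fin_cases i <;> fin_cases j <;> simp [Matrix.mul_apply, Fin.sum_univ_two]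
  rw [symbol_apply_inv, neg_eq_zero] at h1
  exact h1

theorem apply_negOne_of_mem_homPE {ψ : Additive (Gamma0 N) →+ A} (hψ : ψ ∈ homPE N A) :
    ψ (Additive.ofMul (negOne N)) = 0 := by
  refine symbol_apply_eq_zero hψ _ (σ := ModularGroup.S) (by simp) 2 1 ?_
  rw [inv_one, one_mul, mul_one]
  show (-1 : SL(2, ℤ)) = _
  ext i j
  rw [pow_two]
  simp only [Matrix.SpecialLinearGroup.coe_mul, ModularGroup.coe_S,
    Matrix.SpecialLinearGroup.coe_neg, Matrix.SpecialLinearGroup.coe_one]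
  fin_cases i <;> fin_cases j <;> simp [Matrix.mul_apply, Fin.sum_univ_two]

/-- Every primitive column `(a, c)` with `N ∣ c` is the first column of an element of `Γ₀(N)`. -/
theorem exists_firstCol {a c : ℤ} (h : IsCoprime a c) (hc : (N : ℤ) ∣ c) :
    ∃ γ : Gamma0 N, (γ : SL(2, ℤ)) 0 0 = a ∧ (γ : SL(2, ℤ)) 1 0 = c := by
  obtain ⟨u, v, huv⟩ := h
  refine ⟨⟨⟨!![a, -v; c, u], ?_⟩, ?_⟩, rfl, rfl⟩
  · rw [Matrix.det_fin_two_of]
    linear_combination huv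
  · rw [Gamma0_mem]
    exact (ZMod.intCast_zmod_eq_zero_iff_dvd c N).2 hc

/-- The symbol computes `ψ`. -/
theorem sym_eq {ψ : Additive (Gamma0 N) →+ A} (hψ : ψ ∈ homPE N A) (γ : Gamma0 N) :
    sym N ψ ((γ : SL(2, ℤ)) 0 0) ((γ : SL(2, ℤ)) 1 0) = ψ (Additive.ofMul γ) := by
  have hex : ∃ γ' : Gamma0 N, (γ' : SL(2, ℤ)) 0 0 = (γ : SL(2, ℤ)) 0 0 ∧
      (γ' : SL(2, ℤ)) 1 0 = (γ : SL(2, ℤ)) 1 0 := ⟨γ, rfl, rfl⟩
  unfold sym
  rw [dif_pos hex]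
  obtain ⟨h00, h10⟩ := hex.choose_spec
  set γ' := hex.choose with hγ'
  have hdet := symbol_det γ
  have hdet' := symbol_det γ'
  rw [h00, h10] at hdet'
  obtain ⟨t00, t01, t10, t11⟩ := symbol_transl_entry (N := N)
    ((γ : SL(2, ℤ)) 1 1 * (γ' : SL(2, ℤ)) 0 1 - (γ : SL(2, ℤ)) 0 1 * (γ' : SL(2, ℤ)) 1 1)
  have key : γ' = γ * transl N
      ((γ : SL(2, ℤ)) 1 1 * (γ' : SL(2, ℤ)) 0 1 - (γ : SL(2, ℤ)) 0 1 * (γ' : SL(2, ℤ)) 1 1) := by
    have e : ∀ i j : Fin 2, (γ' : SL(2, ℤ)) i j = ((γ * transl N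
        ((γ : SL(2, ℤ)) 1 1 * (γ' : SL(2, ℤ)) 0 1 - (γ : SL(2, ℤ)) 0 1 * (γ' : SL(2, ℤ)) 1 1) :
          Gamma0 N) : SL(2, ℤ)) i j := by
      simp only [Fin.forall_fin_two, symbol_mul_entry, t00, t01, t10, t11]
      refine ⟨⟨?_, ?_⟩, ⟨?_, ?_⟩⟩
      · rw [h00]; ring
      · linear_combination (-(γ' : SL(2, ℤ)) 0 1) * hdet + (γ : SL(2, ℤ)) 0 1 * hdet'
      · rw [h10]; ring
      · linear_combination (-(γ' : SL(2, ℤ)) 1 1) * hdet + (γ : SL(2, ℤ)) 1 1 * hdet'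
    apply Subtype.ext
    ext i j
    exact e i j
  rw [key, symbol_apply_mul, apply_transl_of_mem_homPE hψ, add_zero]

/-- (P1) -/
theorem sym_add_left {ψ : Additive (Gamma0 N) →+ A} (hψ : ψ ∈ homPE N A) (a c : ℤ)
    (h : IsCoprime a c) (hc : (N : ℤ) ∣ c) : sym N ψ (a + c) c = sym N ψ a c := by
  obtain ⟨γ, rfl, rfl⟩ := exists_firstCol (N := N) h hc
  obtain ⟨t00, t01, t10, t11⟩ := symbol_transl_entry (N := N) 1
  have h0 : ((transl N 1 * γ : Gamma0 N) : SL(2, ℤ)) 0 0 =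
      (γ : SL(2, ℤ)) 0 0 + (γ : SL(2, ℤ)) 1 0 := by
    rw [symbol_mul_entry, t00, t01]; ring
  have h1 : ((transl N 1 * γ : Gamma0 N) : SL(2, ℤ)) 1 0 = (γ : SL(2, ℤ)) 1 0 := by
    rw [symbol_mul_entry, t10, t11]; ring
  have h2 := sym_eq hψ (transl N 1 * γ)
  rw [h0, h1] at h2
  rw [h2, sym_eq hψ γ, symbol_apply_mul, apply_transl_of_mem_homPE hψ, zero_add]

/-- (P2) -/
theorem sym_add_right {ψ : Additive (Gamma0 N) →+ A} (hψ : ψ ∈ homPE N A) (a c : ℤ)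
    (h : IsCoprime a c) (hc : (N : ℤ) ∣ c) : sym N ψ a (c + N * a) = sym N ψ a c := by
  obtain ⟨γ, rfl, rfl⟩ := exists_firstCol (N := N) h hc
  have h0 : ((lowerN N * γ : Gamma0 N) : SL(2, ℤ)) 0 0 = (γ : SL(2, ℤ)) 0 0 := by
    rw [symbol_mul_entry]
    show (1 : ℤ) * _ + (0 : ℤ) * _ = _
    ring
  have h1 : ((lowerN N * γ : Gamma0 N) : SL(2, ℤ)) 1 0 =
      (γ : SL(2, ℤ)) 1 0 + N * (γ : SL(2, ℤ)) 0 0 := by
    rw [symbol_mul_entry]
    show (N : ℤ) * _ + (1 : ℤ) * _ = _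
    ring
  have h2 := sym_eq hψ (lowerN N * γ)
  rw [h0, h1] at h2
  rw [h2, sym_eq hψ γ, symbol_apply_mul, apply_lowerN_of_mem_homPE hψ, zero_add]

/-- The symbol is even. -/
theorem sym_neg {ψ : Additive (Gamma0 N) →+ A} (hψ : ψ ∈ homPE N A) (a c : ℤ)
    (h : IsCoprime a c) (hc : (N : ℤ) ∣ c) : sym N ψ (-a) (-c) = sym N ψ a c := by
  obtain ⟨γ, rfl, rfl⟩ := exists_firstCol (N := N) h hc
  have hn : ∀ i j : Fin 2, ((negOne N : Gamma0 N) : SL(2, ℤ)) i j = -(1 : Matrix (Fin 2) (Fin 2) ℤ) i j := by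
    intro i j
    show ((-1 : SL(2, ℤ)) : Matrix (Fin 2) (Fin 2) ℤ) i j = _
    rw [Matrix.SpecialLinearGroup.coe_neg, Matrix.SpecialLinearGroup.coe_one, Matrix.neg_apply]
  have h0 : ((negOne N * γ : Gamma0 N) : SL(2, ℤ)) 0 0 = -(γ : SL(2, ℤ)) 0 0 := by
    rw [symbol_mul_entry, hn, hn]; simp
  have h1 : ((negOne N * γ : Gamma0 N) : SL(2, ℤ)) 1 0 = -(γ : SL(2, ℤ)) 1 0 := by
    rw [symbol_mul_entry, hn, hn]; simp
  have h2 := sym_eq hψ (negOne N * γ)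
  rw [h0, h1] at h2
  rw [h2, sym_eq hψ γ, symbol_apply_mul, apply_negOne_of_mem_homPE hψ, zero_add]

end Fermat.Agent.S41.Glue
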